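/-
S48, block BB-N (owner helper91).  Generic version of `Fermat.Agent.NV2.CardW`: any model `W` of
`{u : n ∣ div u} / n-th powers` has the cardinality of `Pic⁰(F)[n]`.
-/
import Fermat.Agent.NV2.Abs.Kummer

set_option autoImplicit false

namespace Fermat.Agent.S48.BB.N

open AlgebraicCurve Fermat.Agent.S24 Fermat.Agent.S24.FF Fermat.Agent.S27 Fermat.Agent.NV2

variable {K F : Type*} [Field K] [Field F] [Algebra K F] [IsAlgClosed K] [CharZero K] [IsFF1 K F]
  {n : ℕ} {W : Type*} (kum : Subgroup Fˣ)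
  (hkum : ∀ u : Fˣ, u ∈ kum ↔ ∀ v : Place K F, (n : ℤ) ∣ v.ord (u : F))
  (cls' : kum → W) (hsurj : Function.Surjective cls')
  (hcls : ∀ u u' : kum, cls' u = cls' u' ↔ ∃ s : Fˣ, (u' : Fˣ) = u * s ^ n)

/-- The Kummer class `w` corresponds to the divisor class `c`. -/
def KRelG (n : ℕ) (w : W) (c : Pic0 K F) : Prop :=
  ∃ (u : kum) (D : Divisor K F), Divisor.degree D = 0 ∧ cls' u = w ∧ cls D = c ∧
    ∀ v : Place K F, v.ord (((u : Fˣ) : F)) = n * D v

include hkum hsurj in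
theorem KRelG.exists_right (hn : 0 < n) (w : W) :
    ∃ c ∈ Pic0.torsion K F n, KRelG kum cls' n w c := by
  obtain ⟨u, rfl⟩ := hsurj w
  have hu0 : (((u : Fˣ) : F)) ≠ 0 := Units.ne_zero _
  obtain ⟨D0, hD0⟩ := exists_isDivOf (K := K) (((u : Fˣ) : F)) hu0
  have hk := (hkum u).mp u.2
  let D : Divisor K F := D0.mapRange (fun a : ℤ => a / n) (by simp)
  have hDv : ∀ v, (n : ℤ) * D v = D0 v := by
    intro v
    show (n : ℤ) * (D0 v / n) = D0 v
    rw [hD0.2 v]
    exact Int.mul_ediv_cancel' (hk v)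
  have hnD : n • D = D0 := by
    ext v
    rw [Finsupp.smul_apply, nsmul_eq_mul, hDv]
  have hdeg : Divisor.degree D = 0 := by
    have h1 : Divisor.degree (n • D) = 0 := by rw [hnD]; exact hD0.degree
    rw [map_nsmul, nsmul_eq_mul] at h1
    rcases mul_eq_zero.mp h1 with h | h
    · exact absurd h (by exact_mod_cast hn.ne')
    · exact h
  refine ⟨cls D, ?_, u, D, hdeg, rfl, rfl, fun v => by rw [hDv, hD0.2 v]⟩
  rw [Pic0.mem_torsion, natCast_zsmul, ← cls_nsmul' hdeg, hnD,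
    cls_eq_zero_iff hD0.degree]
  exact ⟨_, hD0⟩

include hcls in
theorem KRelG.unique_right (hn : 0 < n) {w : W} {c c' : Pic0 K F}
    (h : KRelG kum cls' n w c) (h' : KRelG kum cls' n w c') : c = c' := by
  obtain ⟨u, D, hD, rfl, rfl, hu⟩ := h
  obtain ⟨u', D', hD', hw, rfl, hu'⟩ := h'
  obtain ⟨s, hs⟩ := (hcls _ _).mp hw
  -- `u = u' * s ^ n`
  rw [cls_eq_cls_iff hD hD']
  refine ⟨(s : F), s.ne_zero, fun v => ?_⟩
  have h1 := hu v
  rw [hs, Units.val_mul, Units.val_pow_eq_pow_val, v.ord_mul (Units.ne_zero _)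
    (pow_ne_zero _ s.ne_zero), hu' v, FF.ord_pow] at h1
  have hn' : (n : ℤ) ≠ 0 := by exact_mod_cast hn.ne'
  have h2 : (n : ℤ) * (D v - D' v) = n * v.ord (s : F) := by linarith
  rw [Finsupp.sub_apply]
  exact mul_left_cancel₀ hn' h2

include hkum in
theorem KRelG.exists_left (c : Pic0 K F) (hc : c ∈ Pic0.torsion K F n) :
    ∃ w : W, KRelG kum cls' n w c := by
  obtain ⟨D, hD, rfl⟩ := cls_surjective c
  rw [Pic0.mem_torsion, natCast_zsmul, ← cls_nsmul' hD,
    cls_eq_zero_iff (by rw [map_nsmul, hD, smul_zero])] at hc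
  obtain ⟨f, hf, hfD⟩ := hc
  have hord : ∀ v : Place K F, v.ord f = n * D v := by
    intro v
    rw [← hfD v, Finsupp.smul_apply, nsmul_eq_mul]
  have hk : Units.mk0 f hf ∈ kum := (hkum _).mpr fun v => by
    show (n : ℤ) ∣ v.ord f
    rw [hord v]
    exact dvd_mul_right _ _
  exact ⟨cls' ⟨Units.mk0 f hf, hk⟩, ⟨Units.mk0 f hf, hk⟩, D, hD, rfl, rfl, hord⟩

include hcls in
theorem KRelG.unique_left (hn : 0 < n) {w w' : W} {c : Pic0 K F}
    (h : KRelG kum cls' n w c) (h' : KRelG kum cls' n w' c) : w = w' := by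
  obtain ⟨u, D, hD, rfl, rfl, hu⟩ := h
  obtain ⟨u', D', hD', rfl, hc, hu'⟩ := h'
  rw [cls_eq_cls_iff hD' hD] at hc
  obtain ⟨s, hs0, hs⟩ := hc
  -- `D' - D = div s`
  rw [hcls]
  set a : F := ((u' : Fˣ) : F) / (((u : Fˣ) : F) * s ^ n) with ha
  have hden : (((u : Fˣ) : F) * s ^ n) ≠ 0 :=
    mul_ne_zero (Units.ne_zero _) (pow_ne_zero _ hs0)
  have hord : ∀ v : Place K F, v.ord a = 0 := by
    intro v
    have h1 := hs v
    rw [Finsupp.sub_apply] at h1
    rw [ha, div_eq_mul_inv, v.ord_mul (Units.ne_zero _) (inv_ne_zero hden), v.ord_inv,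
      v.ord_mul (Units.ne_zero _) (pow_ne_zero _ hs0), FF.ord_pow, hu v, hu' v, ← h1]
    ring
  obtain ⟨a0, ha0⟩ := exists_const_of_forall_ord_eq_zero a hord
  obtain ⟨b, hb⟩ := IsAlgClosed.exists_pow_nat_eq a0 hn
  have hane : a ≠ 0 := div_ne_zero (Units.ne_zero _) hden
  have hb0 : algebraMap K F b ≠ 0 := by
    intro h0
    apply hane
    rw [ha0, ← hb, map_pow, h0, zero_pow hn.ne']
  refine ⟨Units.mk0 (algebraMap K F b * s) (mul_ne_zero hb0 hs0), Units.ext ?_⟩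
  rw [Units.val_mul, Units.val_pow_eq_pow_val, Units.val_mk0, mul_pow, ← map_pow, hb, ← ha0, ha]
  field_simp

include hkum hsurj hcls in
/-- `#W_n = #Pic⁰[n]`. -/
theorem card_eq_card_torsion (hn : 0 < n) :
    Nat.card (W) = Nat.card (Pic0.torsion K F n) := by
  have key : ∀ w : W, ∃ c ∈ Pic0.torsion K F n, KRelG kum cls' n w c :=
    fun w => KRelG.exists_right kum hkum cls' hsurj hn w
  let f : W → Pic0.torsion K F n :=
    fun w => ⟨(key w).choose, (key w).choose_spec.1⟩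
  have hf : ∀ w, KRelG kum cls' n w (f w).1 := fun w => (key w).choose_spec.2
  refine Nat.card_congr (Equiv.ofBijective f ⟨?_, ?_⟩)
  · intro w w' hww
    have h1 := hf w
    rw [hww] at h1
    exact KRelG.unique_left kum cls' hcls hn h1 (hf w')
  · intro c
    obtain ⟨w, hw⟩ := KRelG.exists_left kum hkum cls' c.1 c.2
    exact ⟨w, Subtype.ext (KRelG.unique_right kum cls' hcls hn (hf w) hw)⟩

end Fermat.Agent.S48.BB.N
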