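/-
S48, block BB-N (owner helper91).  Generic version of `Fermat.Agent.NV2.FC`: a function field `F/ℚ̄`
embedded by `Ψ` in `LG Γ` (`Γ` normal of finite index in `SL(2,ℤ)`), with stabiliser `H`.
`FCg Ψ = ℂ · Ψ F ⊆ LG Γ`.
-/
import Fermat.Agent.NV2.Embed
import Fermat.Agent.NV2.Abs.Defs
import Fermat.Agent.S27.H.ConstExtBasic
import Fermat.Agent.S27.H.TensorDomain
import Fermat.Agent.NV2.ConstExt

set_option autoImplicit false

namespace Fermat.Agent.S48.BB.N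

open UpperHalfPlane Fermat.Agent.S24 Fermat.Agent.S24.B Fermat.Agent.S24.FF CongruenceSubgroup
  IntermediateField AlgebraicCurve Fermat.Agent.S27.H Fermat.Agent.NV2
open scoped MatrixGroups Real Manifold

variable {Γ : Subgroup SL(2, ℤ)} {F : Type} [Field F] [Algebra Kbar F]

/-- `Ψ` embeds `F` in `LG Γ`, sends `x` to `j`, and the stabiliser of `Ψ F` is `H`. -/
structure IsEmb [Γ.Normal] (x : F) (H : Subgroup SL(2, ℤ)) (Ψ : F →ₐ[Kbar] LG Γ) : Prop where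
  map_x : Ψ x = algebraMap (AG Γ) (LG Γ) (jG Γ)
  smul_of_mem : ∀ γ ∈ H, ∀ f : F, γ • Ψ f = Ψ f
  mem_of_smul : ∀ γ : SL(2, ℤ), (∀ f : F, γ • Ψ f = Ψ f) → γ ∈ H

theorem smul_LG_of_mem [Γ.Normal] {γ : SL(2, ℤ)} (hγ : γ ∈ Γ) (g : LG Γ) : γ • g = g := by
  obtain ⟨a, b, -, rfl⟩ := IsFractionRing.div_surjective (A := AG Γ) g
  rw [smul_div₀', smul_algebraMap_AG, smul_algebraMap_AG, smul_AG_of_mem hγ, smul_AG_of_mem hγ]

theorem IsEmb.le [Γ.Normal] {x : F} {H : Subgroup SL(2, ℤ)} {Ψ : F →ₐ[Kbar] LG Γ}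
    (hΨ : IsEmb x H Ψ) : Γ ≤ H :=
  fun γ hγ => hΨ.mem_of_smul γ fun f => smul_LG_of_mem hγ (Ψ f)

theorem IsEmb.finiteIndex [Γ.Normal] [Γ.FiniteIndex] {x : F} {H : Subgroup SL(2, ℤ)}
    {Ψ : F →ₐ[Kbar] LG Γ} (hΨ : IsEmb x H Ψ) : H.FiniteIndex :=
  Subgroup.finiteIndex_of_le hΨ.le

/-- The constant extension of `F` to `ℂ`, inside `LG Γ`. -/
noncomputable def FCg (Ψ : F →ₐ[Kbar] LG Γ) : IntermediateField ℂ (LG Γ) :=
  IntermediateField.adjoin ℂ (Set.range Ψ)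

theorem Psi_mem_FCg (Ψ : F →ₐ[Kbar] LG Γ) (f : F) : Ψ f ∈ FCg Ψ :=
  IntermediateField.subset_adjoin _ _ ⟨f, rfl⟩

/-- `F → FCg Ψ`. -/
noncomputable def toFCg (Ψ : F →ₐ[Kbar] LG Γ) : F →+* FCg Ψ :=
  Ψ.toRingHom.codRestrict (FCg Ψ).toSubfield.toSubring (Psi_mem_FCg Ψ)

noncomputable instance instAlgebraFFCg (Ψ : F →ₐ[Kbar] LG Γ) : Algebra F (FCg Ψ) :=
  (toFCg Ψ).toAlgebra

noncomputable instance instSMulFFCg (Ψ : F →ₐ[Kbar] LG Γ) : SMul F (FCg Ψ) :=
  (instAlgebraFFCg Ψ).toSMul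

noncomputable instance instModuleFFCg (Ψ : F →ₐ[Kbar] LG Γ) : Module F (FCg Ψ) :=
  (instAlgebraFFCg Ψ).toModule

theorem coe_algebraMap_F_FCg (Ψ : F →ₐ[Kbar] LG Γ) (f : F) :
    ((algebraMap F (FCg Ψ) f : FCg Ψ) : LG Γ) = Ψ f := rfl

instance instIsScalarTowerKbarFFCg (Ψ : F →ₐ[Kbar] LG Γ) : IsScalarTower Kbar F (FCg Ψ) :=
  IsScalarTower.of_algebraMap_eq fun c => Subtype.ext (by
    rw [coe_algebraMap_F_FCg, AlgHom.commutes]
    rfl)

variable {x : F} {H : Subgroup SL(2, ℤ)} {Ψ : F →ₐ[Kbar] LG Γ}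

/-- `x` as an element of `FCg Ψ`. -/
noncomputable def xC (Ψ : F →ₐ[Kbar] LG Γ) (x : F) : FCg Ψ := algebraMap F (FCg Ψ) x

theorem coe_xC [Γ.Normal] (hΨ : IsEmb x H Ψ) :
    ((xC Ψ x : FCg Ψ) : LG Γ) = algebraMap (AG Γ) (LG Γ) (jG Γ) :=
  hΨ.map_x

theorem transcendental_xC [Γ.Normal] (hΨ : IsEmb x H Ψ) : Transcendental ℂ (xC Ψ x) := by
  rw [transcendental_iff_injective, injective_iff_map_eq_zero]
  intro p hp
  have h1 : Polynomial.aeval ((xC Ψ x : FCg Ψ) : LG Γ) p = 0 := by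
    have h := Polynomial.aeval_algHom_apply (FCg Ψ).val (xC Ψ x) p
    rw [hp, map_zero] at h
    exact h
  rw [coe_xC hΨ, Polynomial.aeval_algebraMap_apply] at h1
  have h2 : Polynomial.aeval (jG Γ) p = 0 :=
    IsFractionRing.injective (AG Γ) (LG Γ) (h1.trans (map_zero _).symm)
  exact (injective_iff_map_eq_zero _).1 aeval_jG_injective p h2

theorem isUniformization_FCg [Γ.Normal] [Γ.FiniteIndex] (hΨ : IsEmb x H Ψ) :
    IsUniformization (xC Ψ x) H (FCg Ψ).val where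
  smul_algebraMap := smul_algebraMap_complex
  smul_of_mem := by
    intro γ hγ f
    have key : ∀ y ∈ FCg Ψ, γ • y = y := by
      intro y hy
      induction hy using IntermediateField.adjoin_induction with
      | mem y hy =>
        obtain ⟨f, rfl⟩ := hy
        exact hΨ.smul_of_mem γ hγ f
      | algebraMap c => exact smul_algebraMap_complex γ c
      | add y z _ _ hy hz => rw [smul_add, hy, hz]
      | inv y _ hy => rw [smul_inv₀', hy]
      | mul y z _ _ hy hz => rw [smul_mul', hy, hz]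
    exact key f.1 f.2
  smul_x := by
    intro γ
    show γ • ((xC Ψ x : FCg Ψ) : LG Γ) = ((xC Ψ x : FCg Ψ) : LG Γ)
    rw [coe_xC hΨ, smul_algebraMap_AG, smul_jG]
  mem_of_smul := by
    intro γ h
    exact hΨ.mem_of_smul γ fun f => h ⟨Ψ f, Psi_mem_FCg Ψ f⟩
  invariants := by
    intro g hg
    obtain ⟨p, q, -, rfl⟩ := invariants_LG g hg
    have hmem : ∀ p : Polynomial ℂ, Polynomial.aeval (xC Ψ x) p ∈ ℂ⟮xC Ψ x⟯ := fun p =>
      IntermediateField.algebra_adjoin_le_adjoin ℂ _ (Polynomial.aeval_mem_adjoin_singleton ℂ _)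
    have hval : ∀ p : Polynomial ℂ, (FCg Ψ).val (Polynomial.aeval (xC Ψ x) p) =
        algebraMap (AG Γ) (LG Γ) (Polynomial.aeval (jG Γ) p) := by
      intro p
      rw [← Polynomial.aeval_algHom_apply, ← Polynomial.aeval_algebraMap_apply, ← coe_xC hΨ]
      rfl
    refine ⟨Polynomial.aeval (xC Ψ x) p / Polynomial.aeval (xC Ψ x) q,
      div_mem (hmem p) (hmem q), ?_⟩
    rw [map_div₀, hval, hval]

theorem finiteDimensional_FCg [Γ.Normal] [Γ.FiniteIndex] (hΨ : IsEmb x H Ψ)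
    (hfg : ∃ s : Finset F, IntermediateField.adjoin Kbar (s : Set F) = ⊤) :
    FiniteDimensional ℂ⟮xC Ψ x⟯ (FCg Ψ) := by
  classical
  have := hΨ.finiteIndex
  obtain ⟨s₀, hs₀⟩ := hfg
  refine CL.finiteDimensional_of_isUniformization (isUniformization_FCg hΨ)
    ⟨s₀.image (algebraMap F (FCg Ψ)), ?_⟩
  have h1 : ∀ f : F, Ψ f ∈ IntermediateField.adjoin ℂ (Ψ '' (s₀ : Set F)) := by
    intro f
    have hf : f ∈ IntermediateField.adjoin Kbar (s₀ : Set F) := by rw [hs₀]; trivial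
    induction hf using IntermediateField.adjoin_induction with
    | mem y hy => exact IntermediateField.subset_adjoin _ _ ⟨y, hy, rfl⟩
    | algebraMap c =>
      rw [AlgHom.commutes, algebraMap_Kbar_LG]
      exact IntermediateField.algebraMap_mem _ _
    | add y z _ _ hy hz => rw [map_add]; exact add_mem hy hz
    | inv y _ hy => rw [map_inv₀]; exact inv_mem hy
    | mul y z _ _ hy hz => rw [map_mul]; exact mul_mem hy hz
  have h2 : FCg Ψ ≤ IntermediateField.adjoin ℂ (Ψ '' (s₀ : Set F)) := by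
    refine IntermediateField.adjoin_le_iff.2 ?_
    rintro _ ⟨f, rfl⟩
    exact h1 f
  have h3 : (IntermediateField.adjoin ℂ
      ((s₀.image (algebraMap F (FCg Ψ)) : Finset (FCg Ψ)) : Set (FCg Ψ))).map (FCg Ψ).val =
      IntermediateField.adjoin ℂ (Ψ '' (s₀ : Set F)) := by
    rw [IntermediateField.adjoin_map, Finset.coe_image, Set.image_image]
    rfl
  rw [eq_top_iff]
  intro y _
  have hy := h2 y.2
  rw [← h3] at hy
  obtain ⟨z, hz, hzy⟩ := hy
  have : z = y := Subtype.ext hzy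
  exact this ▸ hz

theorem isFF1_FCg [Γ.Normal] [Γ.FiniteIndex] (hΨ : IsEmb x H Ψ)
    (hfg : ∃ s : Finset F, IntermediateField.adjoin Kbar (s : Set F) = ⊤) : IsFF1 ℂ (FCg Ψ) := by
  have := finiteDimensional_FCg hΨ hfg
  exact IsFF1.of_exists (xC Ψ x)

theorem adjoin_range_algebraMap_FCg (Ψ : F →ₐ[Kbar] LG Γ) :
    IntermediateField.adjoin ℂ (Set.range (algebraMap F (FCg Ψ))) = ⊤ := by
  apply IntermediateField.map_injective (FCg Ψ).val
  rw [IntermediateField.adjoin_map, ← AlgHom.fieldRange_eq_map, IntermediateField.fieldRange_val]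
  have : (FCg Ψ).val '' Set.range (algebraMap F (FCg Ψ)) = Set.range Ψ := by
    rw [← Set.range_comp]
    rfl
  rw [this]
  rfl

theorem isConstExt_FCg [Γ.Normal] (hΨ : IsEmb x H Ψ) [FiniteDimensional Kbar⟮x⟯ F] :
    IsConstExt Kbar F ℂ (FCg Ψ) := by
  have : Algebra.IsAlgebraic Kbar⟮x⟯ F := Algebra.IsAlgebraic.of_finite _ _
  exact isConstExt_of_injective_of_adjoin _ _ _ _
    (mulMap_injective_of_transcendental Kbar F ℂ (FCg Ψ) x (transcendental_xC hΨ))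
    (adjoin_range_algebraMap_FCg Ψ)

end Fermat.Agent.S48.BB.N
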