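/-
S48, block BB-N (owner helper91).  Adaptor: an embedding `Ψ₀ : F → LL N₀` (fractions of admissible
functions, `GAL/Mult/Adm`) whose image is fixed by a normal subgroup `Γ` factors through `LG Γ`
(fractions of weakly holomorphic modular functions for `Γ`, `NV2`).  Both fields are compared inside
`MM`, the field of fractions of the holomorphic functions.
-/
import Fermat.Agent.S48.BB.N.FCG
import Fermat.Agent.GAL.Mult.API

set_option autoImplicit false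

namespace Fermat.Agent.S48.BB.N

open UpperHalfPlane Fermat.Agent.S24 Fermat.Agent.S24.B Fermat.Agent.NV2 Fermat.Agent.GAL.Mult
open scoped MatrixGroups Real Manifold

variable {Γ : Subgroup SL(2, ℤ)}

/-- `AG Γ → Hol`. -/
noncomputable def agToHol (Γ : Subgroup SL(2, ℤ)) : AG Γ →+* Hol where
  toFun f := ⟨f.1, f.2.mdiff⟩
  map_one' := rfl
  map_mul' _ _ := rfl
  map_zero' := rfl
  map_add' _ _ := rfl

theorem agToHol_apply (f : AG Γ) (τ : ℍ) : (agToHol Γ f).1 τ = f.1 τ := rfl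

theorem agToHol_injective : Function.Injective (agToHol Γ) := fun _ _ h =>
  Subtype.ext (congrArg (fun z : Hol => z.1) h)

/-- `LG Γ → MM`. -/
noncomputable def lgToMM (Γ : Subgroup SL(2, ℤ)) : LG Γ →+* MM :=
  IsFractionRing.lift (g := (algebraMap Hol MM).comp (agToHol Γ))
    ((IsFractionRing.injective Hol MM).comp agToHol_injective)

theorem lgToMM_algebraMap (f : AG Γ) :
    lgToMM Γ (algebraMap (AG Γ) (LG Γ) f) = algebraMap Hol MM (agToHol Γ f) :=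
  IsFractionRing.lift_algebraMap _ _

theorem lgToMM_injective : Function.Injective (lgToMM Γ) := (lgToMM Γ).injective

theorem agToHol_smul [Γ.Normal] (γ : SL(2, ℤ)) (f : AG Γ) :
    agToHol Γ (γ • f) = sl γ • agToHol Γ f := by
  apply Subtype.ext
  funext τ
  rw [smul_Hol_apply, agToHol_apply, agToHol_apply, smul_AG_apply, ← map_inv, sl_smul]

theorem lgToMM_smul [Γ.Normal] (γ : SL(2, ℤ)) (g : LG Γ) :
    lgToMM Γ (γ • g) = sl γ • lgToMM Γ g := by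
  obtain ⟨a, b, -, rfl⟩ := IsFractionRing.div_surjective (A := AG Γ) g
  rw [smul_div₀', smul_algebraMap_AG, smul_algebraMap_AG, map_div₀, map_div₀, lgToMM_algebraMap,
    lgToMM_algebraMap, lgToMM_algebraMap, lgToMM_algebraMap, smul_div₀', smul_algebraMap_Hol,
    smul_algebraMap_Hol, agToHol_smul, agToHol_smul]

theorem lgToMM_algebraMap_Kbar (c : Kbar) :
    lgToMM Γ (algebraMap Kbar (LG Γ) c) = algebraMap Kbar MM c := by
  rw [algebraMap_Kbar_LG, IsScalarTower.algebraMap_apply ℂ (AG Γ) (LG Γ), lgToMM_algebraMap,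
    IsScalarTower.algebraMap_apply Kbar Hol MM]
  rfl

variable {N₀ : ℕ} [NeZero N₀]

/-- an admissible function invariant under `Γ` is weakly holomorphic for `Γ` -/
theorem isWH_of_isAdm {f : ℍ → ℂ} (hf : IsAdm N₀ f) (hinv : ∀ γ ∈ Γ, ∀ τ : ℍ, f (γ • τ) = f τ) :
    IsWH Γ f where
  mdiff := hf.mdiff
  inv := hinv
  growth γ := by
    obtain ⟨s, hs⟩ := hf.texp γ
    exact HasTExp.expGrowth hs

/-- an element of `LL N₀` fixed by `Γ` comes from `LG Γ` -/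
theorem exists_lgToMM_eq (g : LL N₀) (hg : ∀ γ ∈ Γ, γ • g = g) :
    ∃ g' : LG Γ, lgToMM Γ g' = GAL.Mult.embL N₀ g := by
  have : SMulDistribClass Γ (AB N₀) (LL N₀) :=
    ⟨fun γ a l => smul_distrib_smul (γ : SL(2, ℤ)) a l⟩
  obtain ⟨a, b, -, ha, hb, rfl⟩ := exists_invariant_fraction (G := Γ) (A := AB N₀) (L := LL N₀)
    (fun a => (finite_orbit_AB a).subset (by
      rintro _ ⟨γ, rfl⟩
      exact ⟨(γ : SL(2, ℤ)), rfl⟩)) g (fun γ => hg γ γ.2)
  have key : ∀ c : AB N₀, (∀ γ : Γ, γ • c = c) → ∀ γ ∈ Γ, ∀ τ : ℍ, c.1 (γ • τ) = c.1 τ := by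
    intro c hc γ hγ τ
    have h1 := congrArg (fun z : AB N₀ => z.1 τ) (hc ⟨γ⁻¹, inv_mem hγ⟩)
    have h2 : ((⟨γ⁻¹, inv_mem hγ⟩ : Γ) • c).1 τ = c.1 (γ • τ) := by
      show ((γ⁻¹ : SL(2, ℤ)) • c).1 τ = _
      rw [smul_AB_apply, inv_inv]
    exact h2.symm.trans h1
  refine ⟨algebraMap (AG Γ) (LG Γ) ⟨a.1, isWH_of_isAdm a.2 (key a ha)⟩ /
    algebraMap (AG Γ) (LG Γ) ⟨b.1, isWH_of_isAdm b.2 (key b hb)⟩, ?_⟩
  rw [map_div₀, map_div₀, lgToMM_algebraMap, lgToMM_algebraMap, GAL.Mult.embL_algebraMap, GAL.Mult.embL_algebraMap]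
  rfl

variable {F : Type} [Field F] [Algebra Kbar F]

/-- The factorisation of `Ψ₀` through `LG Γ`. -/
noncomputable def liftLG (Ψ₀ : F →ₐ[Kbar] LL N₀) (h : ∀ γ ∈ Γ, ∀ f : F, γ • Ψ₀ f = Ψ₀ f) :
    F →ₐ[Kbar] LG Γ :=
  have hex : ∀ f : F, ∃ g' : LG Γ, lgToMM Γ g' = GAL.Mult.embL N₀ (Ψ₀ f) := fun f =>
    exists_lgToMM_eq (Ψ₀ f) fun γ hγ => h γ hγ f
  { toFun := fun f => (hex f).choose
    map_one' := lgToMM_injective (by
      rw [(hex 1).choose_spec, RingHom.map_one (lgToMM Γ), map_one, map_one])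
    map_mul' := fun f g => lgToMM_injective (by
      rw [(hex (f * g)).choose_spec, RingHom.map_mul (lgToMM Γ), (hex f).choose_spec,
        (hex g).choose_spec, map_mul, map_mul])
    map_zero' := lgToMM_injective (by
      rw [(hex 0).choose_spec, RingHom.map_zero (lgToMM Γ), map_zero, map_zero])
    map_add' := fun f g => lgToMM_injective (by
      rw [(hex (f + g)).choose_spec, RingHom.map_add (lgToMM Γ), (hex f).choose_spec,
        (hex g).choose_spec, map_add, map_add])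
    commutes' := fun c => lgToMM_injective (by
      rw [(hex (algebraMap Kbar F c)).choose_spec, AlgHom.commutes, AlgHom.commutes,
        lgToMM_algebraMap_Kbar]) }

theorem lgToMM_liftLG (Ψ₀ : F →ₐ[Kbar] LL N₀) (h : ∀ γ ∈ Γ, ∀ f : F, γ • Ψ₀ f = Ψ₀ f) (f : F) :
    lgToMM Γ (liftLG Ψ₀ h f) = GAL.Mult.embL N₀ (Ψ₀ f) :=
  (exists_lgToMM_eq (Ψ₀ f) fun γ hγ => h γ hγ f).choose_spec

/-- `j` as an element of `AB N₀`. -/
noncomputable def jAB (N₀ : ℕ) [NeZero N₀] : AB N₀ := alToAB N₀ (jd N₀ 1 (one_dvd N₀))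

theorem jAB_apply (τ : ℍ) : (jAB N₀).1 τ = jfun τ :=
  congrArg (fun z : AG (CongruenceSubgroup.Gamma N₀) => z.1 τ) (embAL_jd_one (N := N₀) le_rfl)

theorem smul_liftLG [Γ.Normal] (Ψ₀ : F →ₐ[Kbar] LL N₀) (h : ∀ γ ∈ Γ, ∀ f : F, γ • Ψ₀ f = Ψ₀ f)
    (γ : SL(2, ℤ)) (f : F) :
    γ • liftLG Ψ₀ h f = liftLG Ψ₀ h f ↔ γ • Ψ₀ f = Ψ₀ f := by
  rw [← (lgToMM_injective (Γ := Γ)).eq_iff, lgToMM_smul, lgToMM_liftLG, ← GAL.Mult.embL_smul]
  exact (GAL.Mult.embL N₀).toRingHom.injective.eq_iff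

theorem isEmb_liftLG [Γ.Normal] {x : F} {H : Subgroup SL(2, ℤ)} (Ψ₀ : F →ₐ[Kbar] LL N₀)
    (hU : IsUniformization x H Ψ₀) (hx : Ψ₀ x = algebraMap (AB N₀) (LL N₀) (jAB N₀))
    (hΓ : Γ ≤ H) :
    IsEmb x H (liftLG (Γ := Γ) Ψ₀ fun γ hγ f => hU.smul_of_mem γ (hΓ hγ) f) where
  map_x := lgToMM_injective (by
    rw [lgToMM_liftLG, hx, GAL.Mult.embL_algebraMap, lgToMM_algebraMap]
    congr 1
    apply Subtype.ext
    funext τ
    exact jAB_apply (N₀ := N₀) τ)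
  smul_of_mem γ hγ f := (smul_liftLG Ψ₀ _ γ f).mpr (hU.smul_of_mem γ hγ f)
  mem_of_smul γ h := hU.mem_of_smul γ fun f => (smul_liftLG Ψ₀ _ γ f).mp (h f)

end Fermat.Agent.S48.BB.N
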