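/-
S48, block BB-N (owner helper91).  Generic version of `Fermat.Agent.NV2.Eis`.
-/
import Fermat.Agent.NV2.Eis

set_option autoImplicit false

namespace Fermat.Agent.S48.BB.N

open UpperHalfPlane Filter Topology Fermat.Agent.S24 Fermat.Agent.S24.B
  CongruenceSubgroup ModularForm Fermat.Agent.Lib.EisensteinChar Fermat.Agent.NV2
open scoped MatrixGroups Real Manifold

variable {H : Subgroup SL(2, ℤ)} {Γ : Subgroup SL(2, ℤ)}

/-- `E_φ E_1² / Δ`. -/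
noncomputable def eisNumG (H : Subgroup SL(2, ℤ)) (φ : H →* ℂˣ) (τ : ℍ) : ℂ :=
  eisChar (H) φ 4 τ * eisChar (H) (1 : H →* ℂˣ) 4 τ ^ 2 / discriminant τ

/-- for all `γ : SL(2,ℤ)`: `eisNum (γ τ) = (E_φ ∣[4] γ) τ (E_1 ∣[4] γ) τ ^ 2 / Δ τ`. -/
theorem eisNum_smul_eqG (φ : H →* ℂˣ) (γ : SL(2, ℤ)) (τ : ℍ) :
    eisNumG H φ (γ • τ) = (eisChar (H) φ 4 ∣[(4 : ℤ)] γ) τ *
      (eisChar (H) (1 : H →* ℂˣ) 4 ∣[(4 : ℤ)] γ) τ ^ 2 / discriminant τ := by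
  have hd : denom γ τ ≠ 0 := denom_ne_zero _ _
  have hΔ : discriminant τ ≠ 0 := discriminant_ne_zero τ
  rw [eisNumG, SL_slash_apply, SL_slash_apply, Eis.discriminant_smul]
  generalize denom γ τ = d at *
  generalize discriminant τ = D at *
  have e4 : d ^ (-(4 : ℤ)) = (d ^ 4)⁻¹ := by rw [zpow_neg]; norm_cast
  have e12 : d ^ (12 : ℤ) = d ^ 12 := by norm_cast
  rw [e4, e12]
  field_simp

theorem eisNum_smulG (φ : H →* ℂˣ)
    (hpar : ∀ g : H, (g : SL(2, ℤ)) 1 0 = 0 → φ g = 1) (γ : H) (τ : ℍ) :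
    eisNumG H φ ((γ : SL(2, ℤ)) • τ) = (φ γ : ℂ) * eisNumG H φ τ := by
  rw [eisNum_smul_eqG, eisChar_slash hpar 4 γ,
    eisChar_slash (φ := (1 : H →* ℂˣ)) (fun _ _ => rfl) 4 γ]
  simp only [Pi.smul_apply, smul_eq_mul, MonoidHom.one_apply, Units.val_one, one_mul, eisNumG]
  ring

theorem isWH_eisNumG (φ : H →* ℂˣ) (hφ : ∀ g : H, ‖((φ g : ℂˣ) : ℂ)‖ = 1)
    (hpar : ∀ g : H, (g : SL(2, ℤ)) 1 0 = 0 → φ g = 1) (hΓ0 : Γ ≤ H)
    (hΓφ : ∀ g : H, (g : SL(2, ℤ)) ∈ Γ → φ g = 1) : IsWH Γ (eisNumG H φ) := by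
  have hφ1 : ∀ g : H, ‖(((1 : H →* ℂˣ) g : ℂˣ) : ℂ)‖ = 1 := fun g => by simp
  have hpar1 : ∀ g : H, (g : SL(2, ℤ)) 1 0 = 0 → (1 : H →* ℂˣ) g = 1 :=
    fun g _ => rfl
  refine ⟨?_, ?_, ?_⟩
  · have h1 : MDiff (eisChar (H) φ 4) := eisChar_mdifferentiable hφ (by norm_num)
    have h2 : MDiff (eisChar (H) (1 : H →* ℂˣ) 4) :=
      eisChar_mdifferentiable hφ1 (by norm_num)
    exact (h1.mul (h2.pow 2)).div CuspForm.discriminant.holo' discriminant_ne_zero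
  · intro γ hγ τ
    have e1 := eisChar_slash hpar 4 ⟨γ, hΓ0 hγ⟩
    have e2 := eisChar_slash hpar1 4 ⟨γ, hΓ0 hγ⟩
    rw [hΓφ ⟨γ, hΓ0 hγ⟩ hγ] at e1
    simp only [Units.val_one, one_smul, MonoidHom.one_apply] at e1 e2
    rw [eisNum_smul_eqG, e1, e2]
    rfl
  · intro γ
    have h1 : ExpGrowth (eisChar (H) φ 4 ∣[(4 : ℤ)] γ) :=
      ExpGrowth.of_isBoundedAtImInfty (isBoundedAtImInfty_eisChar_slash hφ (by norm_num) γ)
    have h2 : ExpGrowth (eisChar (H) (1 : H →* ℂˣ) 4 ∣[(4 : ℤ)] γ) :=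
      ExpGrowth.of_isBoundedAtImInfty (isBoundedAtImInfty_eisChar_slash hφ1 (by norm_num) γ)
    have h3 := (h1.mul (h2.mul h2)).mul expGrowth_inv_discriminant
    have e : (fun τ => eisNumG H φ (γ • τ)) =
        (eisChar (H) φ 4 ∣[(4 : ℤ)] γ) *
          ((eisChar (H) (1 : H →* ℂˣ) 4 ∣[(4 : ℤ)] γ) *
            (eisChar (H) (1 : H →* ℂˣ) 4 ∣[(4 : ℤ)] γ)) *
          fun τ => (discriminant τ)⁻¹ := by
      funext τ
      rw [eisNum_smul_eqG]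
      simp only [Pi.mul_apply]
      rw [div_eq_mul_inv, pow_two]
    rw [e]
    exact h3

theorem eisNum_ne_zeroG (φ : H →* ℂˣ) (hφ : ∀ g : H, ‖((φ g : ℂˣ) : ℂ)‖ = 1)
    (hpar : ∀ g : H, (g : SL(2, ℤ)) 1 0 = 0 → φ g = 1) (hT : ModularGroup.T ∈ H)
    (hneg : (-1 : SL(2, ℤ)) ∈ H) : eisNumG H φ ≠ 0 := by
  intro h0
  have h1 := tendsto_eisChar_atImInfty (k := 4) hφ hpar hT hneg (by norm_num) (by decide)
  have h2 := tendsto_eisChar_atImInfty (G := H) (φ := (1 : H →* ℂˣ)) (k := 4)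
    (fun _ => by simp) (fun _ _ => rfl) hT hneg (by norm_num) (by decide)
  have h3 := h1.mul (h2.pow 2)
  have h4 : (fun τ : ℍ => eisChar (H) φ 4 τ *
      eisChar (H) (1 : H →* ℂˣ) 4 τ ^ 2) = fun _ => 0 := by
    funext τ
    have h5 := congrFun h0 τ
    rw [eisNumG, Pi.zero_apply, div_eq_zero_iff] at h5
    exact h5.resolve_right (discriminant_ne_zero τ)
  rw [h4] at h3
  have h6 := tendsto_nhds_unique h3 tendsto_const_nhds
  norm_num at h6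

/-- an element of `Γ₀(N)` with `c = 0` is `± T^m`, `-1 = S^2`. -/
theorem eq_one_of_c_eq_zeroG (hT : ModularGroup.T ∈ H) (hneg : (-1 : SL(2, ℤ)) ∈ H)
    {n : ℕ} {χ : H →* ℂˣ}
    (hχ : IsPEChar (H) STT n χ) (g : H) (hg : (g : SL(2, ℤ)) 1 0 = 0) :
    χ g = 1 := by
  have hχT : χ ⟨ModularGroup.T, hT⟩ = 1 := by
    refine hχ.2 _ ⟨hT, ModularGroup.T, by simp [STT], 1, 1, ?_⟩
    simp
  have hχneg : χ ⟨-1, hneg⟩ = 1 := by
    refine hχ.2 _ ⟨hneg, ModularGroup.S, by simp [STT], 2, 1, ?_⟩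
    have hS : (ModularGroup.S ^ 2 : SL(2, ℤ)) = -1 := by
      apply Subtype.ext
      rw [pow_two, Matrix.SpecialLinearGroup.coe_mul, ModularGroup.S_mul_S_eq]
      simp
    simp [hS]
  have hχTm : ∀ m : ℤ, χ (⟨ModularGroup.T, hT⟩ ^ m) = 1 := by
    intro m
    rw [map_zpow, hχT, one_zpow]
  have hdet := (g : SL(2, ℤ)).det_coe
  rw [Matrix.det_fin_two, hg, mul_zero, sub_zero] at hdet
  rcases Int.eq_one_or_neg_one_of_mul_eq_one' hdet with ⟨ha, hd⟩ | ⟨ha, hd⟩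
  · have hgT : g = ⟨ModularGroup.T, hT⟩ ^ ((g : SL(2, ℤ)) 0 1) := by
      apply Subtype.ext
      rw [Subgroup.coe_zpow]
      ext i j
      rw [ModularGroup.coe_T_zpow]
      fin_cases i <;> fin_cases j <;> simp [ha, hd, hg]
    rw [hgT, hχTm]
  · have hgT : g = ⟨-1, hneg⟩ * ⟨ModularGroup.T, hT⟩ ^ (-((g : SL(2, ℤ)) 0 1)) := by
      apply Subtype.ext
      rw [Subgroup.coe_mul, Subgroup.coe_zpow]
      ext i j
      rw [Matrix.SpecialLinearGroup.coe_mul, ModularGroup.coe_T_zpow]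
      fin_cases i <;> fin_cases j <;> simp [ha, hd, hg]
    rw [hgT, map_mul, hχTm, hχneg, one_mul]

/-- take `φ = χ⁻¹`, `h = eisNum φ / eisNum 1`: `(g • h) τ = h (g⁻¹ τ) = φ(g⁻¹) h τ = χ(g) h τ`. -/
theorem exists_hasCharG [Γ.Normal] (hΓ0 : Γ ≤ H) (hT : ModularGroup.T ∈ H)
    (hneg : (-1 : SL(2, ℤ)) ∈ H) {n : ℕ} (hn : 0 < n)
    (hker : ∀ χ : H →* ℂˣ, (∀ g, χ g ^ n = 1) →
      ∀ g : H, (g : SL(2, ℤ)) ∈ Γ → χ g = 1)
    (χ : H →* ℂˣ) (hχ : IsPEChar (H) STT n χ) :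
    ∃ h : LG Γ, h ≠ 0 ∧ HasChar (H) h χ := by
  -- the data for a character of exponent `n` trivial on parabolic and elliptic elements
  have key : ∀ φ : H →* ℂˣ, IsPEChar (H) STT n φ →
      ∃ A : AG Γ, A ≠ 0 ∧ ∀ e : H,
        (e : SL(2, ℤ)) • A = algebraMap ℂ (AG Γ) ((φ e⁻¹ : ℂˣ) : ℂ) * A := by
    intro φ hφ'
    have hφ : ∀ g : H, ‖((φ g : ℂˣ) : ℂ)‖ = 1 := norm_eq_one_of_pow n hn.ne' hφ'.1
    have hpar : ∀ g : H, (g : SL(2, ℤ)) 1 0 = 0 → φ g = 1 := eq_one_of_c_eq_zeroG hT hneg hφ'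
    refine ⟨⟨eisNumG H φ, isWH_eisNumG φ hφ hpar hΓ0 (hker φ hφ'.1)⟩, ?_, ?_⟩
    · intro h0
      exact eisNum_ne_zeroG φ hφ hpar hT hneg (congrArg Subtype.val h0)
    · intro e
      apply Subtype.ext
      funext τ
      rw [smul_AG_apply]
      have := eisNum_smulG φ hpar e⁻¹ τ
      rw [Subgroup.coe_inv] at this
      exact this
  have hχinv : IsPEChar (H) STT n χ⁻¹ :=
    ⟨fun e => by rw [MonoidHom.inv_apply, inv_pow, hχ.1, inv_one],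
      fun e he => by rw [MonoidHom.inv_apply, hχ.2 e he, inv_one]⟩
  have hone : IsPEChar (H) STT n (1 : H →* ℂˣ) :=
    ⟨fun e => by rw [MonoidHom.one_apply, one_pow], fun e _ => rfl⟩
  obtain ⟨A, hA0, hA⟩ := key χ⁻¹ hχinv
  obtain ⟨B, hB0, hB⟩ := key 1 hone
  have hinj := IsFractionRing.injective (AG Γ) (LG Γ)
  have hA0' : algebraMap (AG Γ) (LG Γ) A ≠ 0 := fun h => hA0 (hinj (by rw [h, map_zero]))
  have hB0' : algebraMap (AG Γ) (LG Γ) B ≠ 0 := fun h => hB0 (hinj (by rw [h, map_zero]))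
  refine ⟨algebraMap (AG Γ) (LG Γ) A / algebraMap (AG Γ) (LG Γ) B, div_ne_zero hA0' hB0', ?_⟩
  intro e
  rw [smul_div₀', smul_algebraMap_AG, smul_algebraMap_AG, hA e, hB e, map_mul, map_mul,
    ← IsScalarTower.algebraMap_apply ℂ (AG Γ) (LG Γ), ← IsScalarTower.algebraMap_apply ℂ (AG Γ) (LG Γ),
    MonoidHom.one_apply, Units.val_one, map_one, one_mul, MonoidHom.inv_apply, map_inv, inv_inv,
    mul_div_assoc]

end Fermat.Agent.S48.BB.N
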