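/-
S48, block BB-N (owner helper91).  Generic version of `Fermat.Agent.NV2.Group`.
-/
import Fermat.Agent.NV2.Group

set_option autoImplicit false

namespace Fermat.Agent.S48.BB.N

open CongruenceSubgroup Fermat.Agent.NV2
open scoped MatrixGroups

/-- The intersection of the kernels of the characters of `Γ₀(N)` of exponent `n`. -/
def kerAllG (H : Subgroup SL(2, ℤ)) (n : ℕ) : Subgroup SL(2, ℤ) :=
  (⨅ χ : {χ : H →* ℂˣ // ∀ η, χ η ^ n = 1}, χ.1.ker).map (H).subtype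

/-- The auxiliary group. -/
def GHn (H Γ₀ : Subgroup SL(2, ℤ)) (n : ℕ) : Subgroup SL(2, ℤ) := (kerAllG H n ⊓ Γ₀).normalCore

instance instNormalGHn (H Γ₀ : Subgroup SL(2, ℤ)) (n : ℕ) : (GHn H Γ₀ n).Normal := Subgroup.normalCore_normal _

theorem fg_of_finiteIndex (H : Subgroup SL(2, ℤ)) [H.FiniteIndex] : Group.FG H := by
  have : Group.FG SL(2, ℤ) := by
    rw [Group.fg_iff]
    exact ⟨{ModularGroup.S, ModularGroup.T}, _root_.SpecialLinearGroup.SL2Z_generators, by simp⟩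
  exact Subgroup.fg_of_index_ne_zero _

theorem finiteIndex_kerAllG (H : Subgroup SL(2, ℤ)) [H.FiniteIndex] (n : ℕ) [NeZero n] :
    (kerAllG H n).FiniteIndex := by
  have := fg_of_finiteIndex H
  have := finite_chars_of_fg (H) n
  have h1 : (⨅ χ : {χ : H →* ℂˣ // ∀ η, χ η ^ n = 1}, χ.1.ker).FiniteIndex :=
    Subgroup.finiteIndex_iInf fun χ => finiteIndex_ker_of_exponent n χ.1 χ.2
  refine ⟨?_⟩
  rw [kerAllG, Subgroup.index_map_subtype]
  exact mul_ne_zero h1.index_ne_zero (Subgroup.FiniteIndex.index_ne_zero)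

instance instFiniteIndexGHn (H Γ₀ : Subgroup SL(2, ℤ)) [H.FiniteIndex] [Γ₀.FiniteIndex] (n : ℕ)
    [NeZero n] : (GHn H Γ₀ n).FiniteIndex := by
  have := finiteIndex_kerAllG H n
  unfold GHn
  infer_instance

theorem GHn_le (H Γ₀ : Subgroup SL(2, ℤ)) (n : ℕ) : GHn H Γ₀ n ≤ Γ₀ :=
  (Subgroup.normalCore_le _).trans inf_le_right

theorem char_eq_one_of_mem_GHn {H Γ₀ : Subgroup SL(2, ℤ)} {n : ℕ} (χ : H →* ℂˣ) (hχ : ∀ η, χ η ^ n = 1)
    (η : H) (hη : (η : SL(2, ℤ)) ∈ GHn H Γ₀ n) : χ η = 1 := by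
  have h1 : (η : SL(2, ℤ)) ∈ kerAllG H n := (Subgroup.normalCore_le _ hη).1
  obtain ⟨η', hη', he⟩ := Subgroup.mem_map.mp h1
  have hηη : η' = η := Subtype.ext he
  subst hηη
  have := (Subgroup.mem_iInf.mp hη') ⟨χ, hχ⟩
  exact MonoidHom.mem_ker.mp this

end Fermat.Agent.S48.BB.N
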