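/-
S48, block BB-N (owner helper91).  Generic version of `Fermat.Agent.NV2.Roots`.
-/
import Fermat.Agent.S48.BB.N.FCG
import Fermat.Agent.NV2.Roots

set_option autoImplicit false

namespace Fermat.Agent.S48.BB.N

open UpperHalfPlane Filter Topology Fermat.Agent.S24 Fermat.Agent.S24.B Fermat.Agent.S24.FF
  CongruenceSubgroup IntermediateField AlgebraicCurve Fermat.Agent.NV2
open scoped MatrixGroups Real Manifold

variable {Γ : Subgroup SL(2, ℤ)} [Γ.Normal] {F : Type} [Field F] [Algebra Kbar F]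
  {x : F} {H : Subgroup SL(2, ℤ)} {Ψ : F →ₐ[Kbar] LG Γ}

/-- `W = (lval ℂ).comap (wexpL Γ τ₀ ∘ val)` is a `ℤ`-valued valuation of `FCg Ψ`, trivial on `ℂ`.  If it is trivial the
order is `0`; otherwise `CL.exists_place_of_valuation` gives `W = exp (-(m ord_v))`. -/
theorem dvd_order_wexpLg (Ψ : F →ₐ[Kbar] LG Γ) (n : ℕ) (u : FCg Ψ) (hu : u ≠ 0)
    (hdvd : ∀ v : Place ℂ (FCg Ψ), (n : ℤ) ∣ v.ord u) (τ₀ : ℍ) :
    (n : ℤ) ∣ (wexpL Γ τ₀ (u : LG Γ)).order := by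
  set φ : FCg Ψ →+* LaurentSeries ℂ := (wexpL Γ τ₀).comp (FCg Ψ).val.toRingHom with hφ
  have hne : ∀ f : FCg Ψ, f ≠ 0 → φ f ≠ 0 := fun f hf => (map_ne_zero φ).mpr hf
  have hφu : φ u = wexpL Γ τ₀ (u : LG Γ) := rfl
  have hK : ∀ a : ℂ, a ≠ 0 → ((lval ℂ).comap φ) (algebraMap ℂ (FCg Ψ) a) = 1 := by
    intro a ha
    have h1 : φ (algebraMap ℂ (FCg Ψ) a) = HahnSeries.C a := wexpL_algebraMap_complex τ₀ a
    rw [Valuation.comap_apply, lval_of_ne_zero (hne _ ((map_ne_zero _).mpr ha)), h1,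
      HahnSeries.order_C, neg_zero, WithZero.exp_zero]
  rw [← hφu]
  by_cases hnt : ∃ f, f ≠ 0 ∧ ((lval ℂ).comap φ) f < 1
  · obtain ⟨v, e, -, h⟩ := CL.exists_place_of_valuation ((lval ℂ).comap φ) hK hnt
    obtain ⟨k, hk⟩ := hdvd v
    have h2 := h u hu
    rw [Valuation.comap_apply, lval_of_ne_zero (hne u hu), WithZero.exp_inj, hk] at h2
    exact ⟨(e : ℤ) * k, by linarith⟩
  · push Not at hnt
    have h1 := hnt u hu
    have h2 := hnt u⁻¹ (inv_ne_zero hu)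
    rw [Valuation.comap_apply, lval_of_ne_zero (hne u hu), ← WithZero.exp_zero,
      WithZero.exp_le_exp] at h1
    rw [Valuation.comap_apply, map_inv₀, map_inv₀, lval_of_ne_zero (hne u hu), ← WithZero.exp_neg,
      ← WithZero.exp_zero, WithZero.exp_le_exp] at h2
    have h3 : (φ u).order = 0 := by omega
    rw [h3]
    exact dvd_zero _

/-- `S24.B.exists_invariant_fraction` for the group `Γ₀(N)` (elements of `FCg Ψ` are fixed by `Γ₀(N)`: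
`(isUniformization_FCg hΨ).smul_of_mem`). -/
theorem exists_invariant_fraction_H [Γ.FiniteIndex] (hΨ : IsEmb x H Ψ) (u : FCg Ψ) :
    ∃ A B : AG Γ, B ≠ 0 ∧ (∀ γ ∈ H, γ • A = A) ∧ (∀ γ ∈ H, γ • B = B) ∧
      (u : LG Γ) = algebraMap (AG Γ) (LG Γ) A / algebraMap (AG Γ) (LG Γ) B := by
  have : SMulDistribClass (H) (AG Γ) (LG Γ) :=
    ⟨fun g a l => smul_distrib_smul (g : SL(2, ℤ)) a l⟩
  obtain ⟨a, b, hb, ha', hb', h⟩ := exists_invariant_fraction (G := H) (A := AG Γ)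
    (L := LG Γ) (fun a => (finite_orbit_AG a).subset (by
      rintro _ ⟨γ, rfl⟩
      exact ⟨(γ : SL(2, ℤ)), rfl⟩)) (u : LG Γ)
    (fun γ => (isUniformization_FCg hΨ).smul_of_mem (γ : SL(2, ℤ)) γ.2 u)
  exact ⟨a, b, hb, fun γ hγ => ha' ⟨γ, hγ⟩, fun γ hγ => hb' ⟨γ, hγ⟩, h⟩

/-- `Lib.HolRoot.exists_root` gives a holomorphic `a` with `a^n = c`.  For `γ ∈ Γ₀(N)`, `(a ∘ γ)^n = a^n` so
`a ∘ γ = ζ(γ) a` (`exists_root_of_unity`), `ζ` is a character of `Γ₀(N)` of exponent `n`, trivial on `Γ` by `hker`.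
Growth: `‖a (γ τ)‖ ≤ 1 + ‖c (γ τ)‖`. -/
theorem exists_root_AGg (hΓH : Γ ≤ H) {n : ℕ} (hn : 0 < n)
    (hker : ∀ χ : H →* ℂˣ, (∀ η, χ η ^ n = 1) →
      ∀ η : H, (η : SL(2, ℤ)) ∈ Γ → χ η = 1)
    (c : AG Γ) (hc : c ≠ 0) (hinv : ∀ γ ∈ H, γ • c = c)
    (hord : ∀ τ₀ : ℍ, ∃ m : ℕ, ordAt τ₀ c.1 = ((n * m : ℕ) : ℕ∞)) :
    ∃ a : AG Γ, a ^ n = c := by
  obtain ⟨a, ha, hpow⟩ := Lib.HolRoot.exists_root hn.ne' c.1 c.2.mdiff hord
  -- a point where `a` does not vanish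
  obtain ⟨τ₁, hτ₁⟩ : ∃ τ₁, a τ₁ ≠ 0 := by
    by_contra hcon
    push Not at hcon
    apply hc
    apply Subtype.ext
    funext τ
    rw [← hpow τ, hcon τ, zero_pow hn.ne']
    rfl
  have hcinv : ∀ η ∈ H, ∀ τ, c.1 (η • τ) = c.1 τ := by
    intro η hη τ
    have h1 := congrArg (fun f : AG Γ => f.1 τ) (hinv η⁻¹ (inv_mem hη))
    simpa only [smul_AG_apply, inv_inv] using h1
  have hmd : ∀ η : SL(2, ℤ), MDiff (fun τ => a (η • τ)) := fun η =>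
    ha.comp (UpperHalfPlane.mdifferentiable_smul (g := (η : GL (Fin 2) ℝ)) (by simp))
  have hζ : ∀ η : H, ∃ ζ : ℂ, ζ ^ n = 1 ∧ ∀ τ, a ((η : SL(2, ℤ)) • τ) = ζ * a τ := by
    intro η
    refine Lib.HolRoot.exists_root_of_unity hn.ne' (hmd η) ha (fun τ => ?_)
    rw [hpow, hpow, hcinv η η.2]
  choose ζ hζ1 hζ2 using hζ
  have hζ0 : ∀ η, ζ η ≠ 0 := fun η h0 => by
    have := hζ1 η
    rw [h0, zero_pow hn.ne'] at this
    exact zero_ne_one this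
  have hone : ζ 1 = 1 := by
    have := hζ2 1 τ₁
    rw [Subgroup.coe_one, one_smul] at this
    exact (mul_right_cancel₀ hτ₁ (by rw [one_mul]; exact this)).symm
  have hmul : ∀ η η', ζ (η * η') = ζ η * ζ η' := by
    intro η η'
    have h1 := hζ2 (η * η') τ₁
    rw [Subgroup.coe_mul, mul_smul, hζ2 η, hζ2 η', ← mul_assoc] at h1
    exact (mul_right_cancel₀ hτ₁ h1).symm
  let χ : H →* ℂˣ :=
    { toFun := fun η => Units.mk0 (ζ η) (hζ0 η)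
      map_one' := Units.ext hone
      map_mul' := fun η η' => Units.ext (hmul η η') }
  have hχ : ∀ η, χ η ^ n = 1 := fun η => Units.ext (by
    rw [Units.val_pow_eq_pow_val]
    exact hζ1 η)
  have hΓ0 : Γ ≤ H := hΓH
  refine ⟨⟨a, ha, ?_, ?_⟩, ?_⟩
  · intro γ hγ τ
    have h1 := hker χ hχ ⟨γ, hΓ0 hγ⟩ hγ
    have h2 : ζ ⟨γ, hΓ0 hγ⟩ = 1 := congrArg Units.val h1
    have h3 := hζ2 ⟨γ, hΓ0 hγ⟩ τ
    rw [h2, one_mul] at h3
    exact h3
  · intro γ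
    exact ExpGrowth.of_pow_eq hn (c.2.growth γ) (fun τ => hpow _)
  · apply Subtype.ext
    funext τ
    exact hpow τ

/-- `u = A / B = A B^(n-1) / B^n`; apply `exists_root_AG` to `c = A B^(n-1)`;
`order (wexp c) = order (wexpL u) + n order (wexp B)` (`order_wexp`). -/
theorem exists_root_LGg [Γ.FiniteIndex] (hΨ : IsEmb x H Ψ) {n : ℕ} (hn : 0 < n)
    (hker : ∀ χ : H →* ℂˣ, (∀ η, χ η ^ n = 1) →
      ∀ η : H, (η : SL(2, ℤ)) ∈ Γ → χ η = 1)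
    (u : FCg Ψ) (hu : u ≠ 0) (hdvd : ∀ v : Place ℂ (FCg Ψ), (n : ℤ) ∣ v.ord u) :
    ∃ h : LG Γ, h ^ n = (FCg Ψ).val u := by
  obtain ⟨A, B, hB, hAinv, hBinv, huAB⟩ := exists_invariant_fraction_H hΨ u
  have hinj : Function.Injective (algebraMap (AG Γ) (LG Γ)) := IsFractionRing.injective _ _
  have hB' : algebraMap (AG Γ) (LG Γ) B ≠ 0 := (map_ne_zero_iff _ hinj).mpr hB
  have hu' : (u : LG Γ) ≠ 0 := fun h => hu (Subtype.ext h)
  have hA : A ≠ 0 := by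
    rintro rfl
    rw [map_zero, zero_div] at huAB
    exact hu' huAB
  obtain ⟨k, rfl⟩ : ∃ k, n = k + 1 := ⟨n - 1, by omega⟩
  set c : AG Γ := A * B ^ k with hc
  have hc0 : c ≠ 0 := mul_ne_zero hA (pow_ne_zero _ hB)
  have hcu : algebraMap (AG Γ) (LG Γ) c = (u : LG Γ) * algebraMap (AG Γ) (LG Γ) B ^ (k + 1) := by
    rw [hc, map_mul, map_pow, huAB, pow_succ]
    field_simp
  have hcinv : ∀ γ ∈ H, γ • c = c := by
    intro γ hγ
    rw [hc, smul_mul', smul_pow', hAinv γ hγ, hBinv γ hγ]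
  have hord : ∀ τ₀ : ℍ, ∃ m : ℕ, ordAt τ₀ c.1 = (((k + 1) * m : ℕ) : ℕ∞) := by
    intro τ₀
    have hwinj : Function.Injective (wexpL Γ τ₀) := (wexpL Γ τ₀).injective
    have hwc : wexp Γ τ₀ c ≠ 0 := (map_ne_zero_iff _ (wexp_injective τ₀)).mpr hc0
    have hwB : wexp Γ τ₀ B ≠ 0 := (map_ne_zero_iff _ (wexp_injective τ₀)).mpr hB
    obtain ⟨a, ha⟩ : ∃ a : ℕ, (wexp Γ τ₀ c).order = (a : ℕ∞) :=
      ⟨(wexp Γ τ₀ c).order.toNat, (ENat.natCast_toNat (PowerSeries.order_eq_top.not.mpr hwc)).symm⟩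
    obtain ⟨b, hb⟩ : ∃ b : ℕ, (wexp Γ τ₀ B).order = (b : ℕ∞) :=
      ⟨(wexp Γ τ₀ B).order.toNat, (ENat.natCast_toNat (PowerSeries.order_eq_top.not.mpr hwB)).symm⟩
    have h1 := congrArg (fun z => (wexpL Γ τ₀ z).order) hcu
    simp only [map_mul, map_pow, wexpL_algebraMap] at h1
    rw [HahnSeries.order_mul ((map_ne_zero_iff _ hwinj).mpr hu')
      (pow_ne_zero _ ((map_ne_zero_iff _ HahnSeries.ofPowerSeries_injective).mpr hwB)),
      HahnSeries.order_pow, order_ofPowerSeries _ a ha, order_ofPowerSeries _ b hb] at h1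
    obtain ⟨d, hd⟩ := dvd_order_wexpLg Ψ (k + 1) u hu hdvd τ₀
    rw [hd] at h1
    have h2 : (a : ℤ) = ((k + 1 : ℕ) : ℤ) * (d + b) := by
      rw [h1]; simp only [nsmul_eq_mul]; ring
    have hdb : 0 ≤ d + b := by
      by_contra hneg
      push Not at hneg
      have : ((k + 1 : ℕ) : ℤ) * (d + b) < 0 :=
        mul_neg_of_pos_of_neg (by positivity) hneg
      omega
    refine ⟨(d + b).toNat, ?_⟩
    rw [← order_wexp, ha]
    have h3 : (a : ℤ) = (((k + 1) * (d + b).toNat : ℕ) : ℤ) := by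
      rw [h2]; push_cast; rw [Int.toNat_of_nonneg hdb]
    exact_mod_cast h3
  obtain ⟨a, ha⟩ := exists_root_AGg hΨ.le hn hker c hc0 hcinv hord
  refine ⟨algebraMap (AG Γ) (LG Γ) a / algebraMap (AG Γ) (LG Γ) B, ?_⟩
  rw [div_pow, ← map_pow, ha, hcu]
  show _ = (u : LG Γ)
  field_simp

end Fermat.Agent.S48.BB.N
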