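/-
S48, block BB-N (owner helper91).  Generic version of `Fermat.Agent.NV2.Final`:
for a function field `F/ℚ̄` embedded in `LG Γ` with stabiliser `H`,
`#Pic⁰(F)[n] = #{characters of H of exponent n, trivial on parabolic and elliptic elements}`.
-/
import Fermat.Agent.NV2.Abs.Kummer
import Fermat.Agent.S48.BB.N.PointsG
import Fermat.Agent.S48.BB.N.RootsG
import Fermat.Agent.S48.BB.N.EisG
import Fermat.Agent.S48.BB.N.GroupG
import Fermat.Agent.S27.H.Rigidity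
import Fermat.Agent.S27.H.PartB

set_option autoImplicit false

namespace Fermat.Agent.S48.BB.N

open UpperHalfPlane Fermat.Agent.S24 Fermat.Agent.S24.B Fermat.Agent.S24.FF CongruenceSubgroup
  IntermediateField AlgebraicCurve Fermat.Agent.S27.H Fermat.Agent.NV2
open scoped MatrixGroups

variable {Γ : Subgroup SL(2, ℤ)} [Γ.Normal] [Γ.FiniteIndex] {F : Type} [Field F] [Algebra Kbar F]
  {x : F} {H : Subgroup SL(2, ℤ)} {Ψ : F →ₐ[Kbar] LG Γ}

/-- The complex case. -/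
theorem card_torsion_FCg (hΨ : IsEmb x H Ψ)
    (hfg : ∃ s : Finset F, IntermediateField.adjoin Kbar (s : Set F) = ⊤)
    (hT : ModularGroup.T ∈ H) (hneg : (-1 : SL(2, ℤ)) ∈ H) {n : ℕ} (hn : 0 < n)
    (hker : ∀ χ : H →* ℂˣ, (∀ η, χ η ^ n = 1) → ∀ η : H, (η : SL(2, ℤ)) ∈ Γ → χ η = 1) :
    Nat.card (Pic0.torsion ℂ (FCg Ψ) n) = Nat.card {χ : H →* ℂˣ // IsPEChar H STT n χ} := by
  have := finiteDimensional_FCg hΨ hfg
  have := hΨ.finiteIndex
  exact card_torsion_eq_card_char (transcendental_xC hΨ) (isUniformization_FCg hΨ)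
    (covers_FCg hΨ hfg) (hasData_FCg hΨ) n hn
    (fun u hu hdvd => exists_root_LGg hΨ hn hker u hu hdvd)
    (fun χ hχ => exists_hasCharG hΨ.le hT hneg hn hker χ hχ)

theorem finite_isPEChar (H : Subgroup SL(2, ℤ)) [H.FiniteIndex] {n : ℕ} (hn : 0 < n) :
    Finite {χ : H →* ℂˣ // IsPEChar H STT n χ} := by
  have : NeZero n := ⟨hn.ne'⟩
  have := fg_of_finiteIndex H
  have := finite_chars_of_fg H n
  exact Finite.of_injective
    (fun χ : {χ : H →* ℂˣ // IsPEChar H STT n χ} =>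
      (⟨χ.1, χ.2.1⟩ : {χ : H →* ℂˣ // ∀ η, χ η ^ n = 1}))
    (fun χ ψ h => Subtype.ext (congrArg (fun z : {χ : H →* ℂˣ // ∀ η, χ η ^ n = 1} => z.1) h))

theorem card_isPEChar_pos (H : Subgroup SL(2, ℤ)) [H.FiniteIndex] {n : ℕ} (hn : 0 < n) :
    0 < Nat.card {χ : H →* ℂˣ // IsPEChar H STT n χ} := by
  have := finite_isPEChar H hn
  have : Nonempty {χ : H →* ℂˣ // IsPEChar H STT n χ} :=
    ⟨⟨1, fun _ => by rw [MonoidHom.one_apply, one_pow], fun _ _ => rfl⟩⟩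
  exact Nat.card_pos

/-- **Generic count over `ℚ̄`.** -/
theorem card_torsion_of_isEmb [IsFF1 Kbar F] [FiniteDimensional Kbar⟮x⟯ F] (hΨ : IsEmb x H Ψ)
    (hx : Transcendental Kbar x)
    (hfg : ∃ s : Finset F, IntermediateField.adjoin Kbar (s : Set F) = ⊤)
    (hT : ModularGroup.T ∈ H) (hneg : (-1 : SL(2, ℤ)) ∈ H) {n : ℕ} (hn : 0 < n)
    (hker : ∀ χ : H →* ℂˣ, (∀ η, χ η ^ n = 1) → ∀ η : H, (η : SL(2, ℤ)) ∈ Γ → χ η = 1) :
    Nat.card (Pic0.torsion Kbar F n) = Nat.card {χ : H →* ℂˣ // IsPEChar H STT n χ} := by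
  have := isFF1_FCg hΨ hfg
  have := isConstExt_FCg hΨ
  have := hΨ.finiteIndex
  have hcard := card_torsion_FCg hΨ hfg hT hneg hn hker
  have hfin : Finite (Pic0.torsion ℂ (FCg Ψ) n) := by
    apply Nat.finite_of_card_ne_zero
    rw [hcard]
    exact (card_isPEChar_pos H hn).ne'
  rw [← hcard]
  exact card_torsion_eq Kbar F ℂ (FCg Ψ) ⟨x, hx⟩
    (riemannThm ℂ (FCg Ψ) ⟨xC Ψ x, transcendental_xC hΨ⟩) n hfin

end Fermat.Agent.S48.BB.N
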