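/-
S48, block BB-N (owner helper91).  MAIN RESULTS of the block.

* `card_torsion_of_isUniformization` : for a function field `F/ℚ̄` uniformised by `Ψ₀ : F → LL N₀` with
  group `H`:  `#Pic⁰(F)[n] = #homPE H (ℤ/n)`;
* `card_eq_card_homPE` : the same for any model `W` of `{u : n ∣ div u} / n-th powers`;
* `surjective_of_injective` : an injective map `W → homPE H (ℤ/n)` is bijective.
-/
import Fermat.Agent.S48.BB.N.FinalG
import Fermat.Agent.S48.BB.N.Adaptor
import Fermat.Agent.S48.BB.N.HomPEG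
import Fermat.Agent.S48.BB.N.CardWG

set_option autoImplicit false

namespace Fermat.Agent.S48.BB.N

open UpperHalfPlane Fermat.Agent.S24 Fermat.Agent.S24.B Fermat.Agent.S24.FF
  IntermediateField AlgebraicCurve Fermat.Agent.NV2 Fermat.Agent.GAL.Mult
open scoped MatrixGroups

variable {F : Type} [Field F] [Algebra Kbar F] {N₀ : ℕ} [NeZero N₀] {x : F}
  {H : Subgroup SL(2, ℤ)}

/-- **Main count.** -/
theorem card_torsion_of_isUniformization [H.FiniteIndex] [IsFF1 Kbar F]
    [FiniteDimensional Kbar⟮x⟯ F] (Ψ₀ : F →ₐ[Kbar] LL N₀) (hU : IsUniformization x H Ψ₀)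
    (hx : Ψ₀ x = algebraMap (AB N₀) (LL N₀) (jAB N₀)) (hxt : Transcendental Kbar x)
    (hfg : ∃ s : Finset F, IntermediateField.adjoin Kbar (s : Set F) = ⊤)
    (hT : ModularGroup.T ∈ H) (hneg : (-1 : SL(2, ℤ)) ∈ H) {n : ℕ} (hn : 0 < n) :
    Nat.card (Pic0.torsion Kbar F n) = Nat.card (homPE H (ZMod n)) := by
  have : NeZero n := ⟨hn.ne'⟩
  rw [← card_isPEChar_eq_card_homPE H n hn]
  exact card_torsion_of_isEmb (Γ := GHn H H n) (isEmb_liftLG Ψ₀ hU hx (GHn_le H H n)) hxt hfg hT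
    hneg hn (fun χ hχ η hη => char_eq_one_of_mem_GHn χ hχ η hη)

theorem finite_homPE (H : Subgroup SL(2, ℤ)) [H.FiniteIndex] {n : ℕ} (hn : 0 < n) :
    Finite (homPE H (ZMod n)) := by
  apply Nat.finite_of_card_ne_zero
  rw [← card_isPEChar_eq_card_homPE H n hn]
  exact (card_isPEChar_pos H hn).ne'

/-- The count for any model `W` of the Kummer classes. -/
theorem card_eq_card_homPE [H.FiniteIndex] [IsFF1 Kbar F]
    [FiniteDimensional Kbar⟮x⟯ F] (Ψ₀ : F →ₐ[Kbar] LL N₀) (hU : IsUniformization x H Ψ₀)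
    (hx : Ψ₀ x = algebraMap (AB N₀) (LL N₀) (jAB N₀)) (hxt : Transcendental Kbar x)
    (hfg : ∃ s : Finset F, IntermediateField.adjoin Kbar (s : Set F) = ⊤)
    (hT : ModularGroup.T ∈ H) (hneg : (-1 : SL(2, ℤ)) ∈ H) {n : ℕ} (hn : 0 < n)
    {W : Type*} (kum : Subgroup Fˣ)
    (hkum : ∀ u : Fˣ, u ∈ kum ↔ ∀ v : Place Kbar F, (n : ℤ) ∣ v.ord (u : F))
    (cls' : kum → W) (hsurj : Function.Surjective cls')
    (hcls : ∀ u u' : kum, cls' u = cls' u' ↔ ∃ s : Fˣ, (u' : Fˣ) = u * s ^ n) :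
    Nat.card W = Nat.card (homPE H (ZMod n)) := by
  rw [card_eq_card_torsion kum hkum cls' hsurj hcls hn,
    card_torsion_of_isUniformization Ψ₀ hU hx hxt hfg hT hneg hn]

/-- An injective map from a set with the cardinality of `homPE H (ℤ/n)` to it is surjective. -/
theorem surjective_of_injective [H.FiniteIndex] {n : ℕ} (hn : 0 < n) {W : Type*}
    (hcard : Nat.card W = Nat.card (homPE H (ZMod n))) (μ : W → homPE H (ZMod n))
    (hμ : Function.Injective μ) : Function.Surjective μ := by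
  have := finite_homPE H hn
  have : Finite W := Finite.of_injective μ hμ
  exact ((Nat.bijective_iff_injective_and_card μ).mpr ⟨hμ, hcard⟩).2

end Fermat.Agent.S48.BB.N
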