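/-
S48, block BB-N (owner helper91).  Instantiation of the generic count for `(F₀, H, N, hL : IsLvl F₀ H N)`,
in the language of `BB/Top/Contract.lean` (`Top.homPE`).
-/
import Fermat.Agent.S48.BB.N.Main
import Fermat.Agent.S48.BB.U.Basic
import Fermat.Agent.S48.BB.Top.Contract
import Fermat.Agent.GAL.E.HeckeComm

set_option autoImplicit false

namespace Fermat.Agent.S48.BB.N

open UpperHalfPlane ModularCurve Fermat.Agent.S24 Fermat.Agent.S24.B Fermat.Agent.S24.FF
  IntermediateField AlgebraicCurve Fermat.Agent.NV2 Fermat.Agent.GAL.Mult Fermat.Agent.S48.BB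
open scoped MatrixGroups

variable {F₀ : IntermediateField ℚ (LaurentSeries ℚ)} {H : Subgroup SL(2, ℤ)} {N : ℕ} [NeZero N]

theorem neg_one_smul_AB (a : AB N) : (-1 : SL(2, ℤ)) • a = a := by
  apply Subtype.ext
  funext τ
  rw [smul_AB_apply]
  have h : ((-1 : SL(2, ℤ))⁻¹ : SL(2, ℤ)) = -1 := by
    rw [inv_eq_iff_mul_eq_one]; simp
  rw [h, ModularGroup.SL_neg_smul, one_smul]

theorem neg_one_smul_LL (g : LL N) : (-1 : SL(2, ℤ)) • g = g := by
  obtain ⟨a, b, -, rfl⟩ := IsFractionRing.div_surjective (A := AB N) g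
  rw [smul_div₀', smul_algebraMap_AB, smul_algebraMap_AB, neg_one_smul_AB, neg_one_smul_AB]

theorem neg_one_mem (hL : IsLvl F₀ H N) : (-1 : SL(2, ℤ)) ∈ H :=
  hL.stab _ fun _ _ g _ => neg_one_smul_LL g

theorem T_mem (hL : IsLvl F₀ H N) : ModularGroup.T ∈ H := by
  refine hL.stab _ fun f _ g hg => texpLL_injective ?_
  rw [texpLL_T_smul, hg, GAL.E.HeckeComm.twist_qExpand, inv_pow,
    (isPrimitiveRoot_zetaK N).pow_eq_one, inv_one, twist_one]

theorem Psi_jB_eq (hL : IsLvl F₀ H N) :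
    U.Psi hL (U.jB hL) = algebraMap (AB N) (LL N) (jAB N) := by
  rw [U.Psi_jB, PsiL_apply,
    show Psi N (jF N) = algebraMap (AL N) (LN N) (jd N 1 (one_dvd N)) from Psi_JF 1 (one_dvd N),
    lnToLL_algebraMap]
  rfl

theorem homPE_eq (H : Subgroup SL(2, ℤ)) (A : Type*) [AddCommGroup A] :
    Top.homPE H A = homPE H A := rfl

/-- **The count of block NV.** -/
theorem card_torsion_FB (hL : IsLvl F₀ H N) {n : ℕ} (hn : 0 < n) :
    Nat.card (Pic0.torsion Kbar (FB F₀) n) = Nat.card (Top.homPE H (ZMod n)) := by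
  have := U.finiteIndex hL
  have := U.isFF1 hL
  have := U.finiteDimensional hL
  exact card_torsion_of_isUniformization (U.Psi hL) (U.isUniformization hL) (Psi_jB_eq hL)
    (U.transcendental_jB hL) (U.exists_finset_adjoin_eq_top hL) (T_mem hL) (neg_one_mem hL) hn

/-- **Surjectivity of the multiplier map**, for any model `W` of the Kummer classes. -/
theorem mult_surjective (hL : IsLvl F₀ H N) {n : ℕ} (hn : 0 < n)
    {W : Type*} (kum : Subgroup (FB F₀)ˣ)
    (hkum : ∀ u : (FB F₀)ˣ, u ∈ kum ↔ ∀ v : Place Kbar (FB F₀), (n : ℤ) ∣ v.ord (u : FB F₀))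
    (cls' : kum → W) (hsurj : Function.Surjective cls')
    (hcls : ∀ u u' : kum, cls' u = cls' u' ↔ ∃ s : (FB F₀)ˣ, (u' : (FB F₀)ˣ) = u * s ^ n)
    (μ : W → (Additive H →+ ZMod n)) (hinj : Function.Injective μ)
    (hmem : ∀ w, μ w ∈ Top.homPE H (ZMod n)) :
    ∀ ψ ∈ Top.homPE H (ZMod n), ∃ w, μ w = ψ := by
  have := U.finiteIndex hL
  have := U.isFF1 hL
  have hcard : Nat.card W = Nat.card (homPE H (ZMod n)) := by
    rw [card_eq_card_torsion kum hkum cls' hsurj hcls hn, card_torsion_FB hL hn]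
    rfl
  have h := surjective_of_injective hn hcard (fun w => (⟨μ w, hmem w⟩ : homPE H (ZMod n)))
    (fun v w h => hinj (congrArg Subtype.val h))
  intro ψ hψ
  obtain ⟨w, hw⟩ := h ⟨ψ, hψ⟩
  exact ⟨w, congrArg Subtype.val hw⟩

end Fermat.Agent.S48.BB.N
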