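/-
S48, block BB-N (owner helper91).  The count of block NV in the language of block M
(`M.homPE`, `M.W`, `M.multL`): the multiplier map of `FB F₀` is onto `homPE`.
-/
import Fermat.Agent.S48.BB.N.Inst
import Fermat.Agent.S48.BB.M.Inst

set_option autoImplicit false

namespace Fermat.Agent.S48.BB.N

open UpperHalfPlane ModularCurve Fermat.Agent.S24 Fermat.Agent.S24.B Fermat.Agent.S24.FF
  IntermediateField AlgebraicCurve Fermat.Agent.NV2 Fermat.Agent.GAL.Mult Fermat.Agent.S48.BB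
open scoped MatrixGroups

variable {F₀ : IntermediateField ℚ (LaurentSeries ℚ)} {H : Subgroup SL(2, ℤ)} {N : ℕ} [NeZero N]

theorem homPE_M_eq_Top (H : Subgroup SL(2, ℤ)) (A : Type*) [AddCommGroup A] :
    M.homPE H A = Top.homPE H A := by
  ext ψ
  rw [M.mem_homPE', Top.mem_homPE]

theorem cls_M_eq_iff {F : Type*} [Field F] [Algebra Kbar F] {n : ℕ} (u u' : M.kum F n) :
    M.cls u = M.cls u' ↔ ∃ s : Fˣ, (u' : Fˣ) = u * s ^ n := by
  have h1 : M.cls u = M.cls u' ↔ M.cls (u⁻¹ * u') = 0 := by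
    rw [M.cls_mul, M.cls_inv]
    constructor
    · intro h; rw [h]; exact neg_add_cancel (M.cls u')
    · intro h; exact (neg_add_eq_zero (a := M.cls u) (b := M.cls u')).1 h
  rw [h1, M.cls_eq_zero_iff, M.mem_pows]
  constructor
  · rintro ⟨s, hs⟩
    refine ⟨s, ?_⟩
    rw [hs]
    simp
  · rintro ⟨s, hs⟩
    refine ⟨s, ?_⟩
    simp [hs]

/-- `multL` is onto `Top.homPE`. -/
theorem multL_surjective_Top (hL : IsLvl F₀ H N) (n : ℕ) [NeZero n] :
    ∀ ψ ∈ Top.homPE H (ZMod n), ∃ w, M.multL hL n w = ψ :=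
  mult_surjective hL (Nat.pos_of_ne_zero (NeZero.ne n)) (M.kum (FB F₀) n) (fun _ => Iff.rfl)
    M.cls M.cls_surjective cls_M_eq_iff (M.multL hL n) (M.multL_injective hL n)
    (fun w => by rw [← homPE_M_eq_Top]; exact M.multL_mem_homPE hL n w)

theorem multL_mem_Top (hL : IsLvl F₀ H N) (n : ℕ) [NeZero n] (w : M.W (FB F₀) n) :
    M.multL hL n w ∈ Top.homPE H (ZMod n) := by
  rw [← homPE_M_eq_Top]; exact M.multL_mem_homPE hL n w

theorem finite_homPE_M (hL : IsLvl F₀ H N) (n : ℕ) [NeZero n] : Finite (M.homPE H (ZMod n)) := by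
  have := U.finiteIndex hL
  rw [homPE_M_eq_Top]
  exact finite_homPE H (Nat.pos_of_ne_zero (NeZero.ne n))

theorem card_W_M (hL : IsLvl F₀ H N) (n : ℕ) [NeZero n] :
    Nat.card (M.W (FB F₀) n) = Nat.card (M.homPE H (ZMod n)) := by
  have := U.isFF1 hL
  rw [card_eq_card_torsion (M.kum (FB F₀) n) (fun _ => Iff.rfl) M.cls M.cls_surjective
    cls_M_eq_iff (Nat.pos_of_ne_zero (NeZero.ne n)),
    card_torsion_FB hL (Nat.pos_of_ne_zero (NeZero.ne n)), homPE_M_eq_Top]

/-- **Blocks M + NV**: the multiplier map `W (FB F₀) n → homPE H (ℤ/n)` is bijective. -/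
theorem multLPE_bijective (hL : IsLvl F₀ H N) (n : ℕ) [NeZero n] :
    Function.Bijective (M.multLPE hL n) := by
  have := finite_homPE_M hL n
  exact M.multLPE_bijective hL n (card_W_M hL n).ge

theorem finite_W_M (hL : IsLvl F₀ H N) (n : ℕ) [NeZero n] : Finite (M.W (FB F₀) n) := by
  have := finite_homPE_M hL n
  exact Finite.of_injective _ (multLPE_bijective hL n).1

end Fermat.Agent.S48.BB.N
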