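/-
S48, block BB-N (owner helper91).  `homPE H A`: the homomorphisms `H → A` killing the elements of `H`
which are conjugate in `SL(2,ℤ)` to a power of `S`, `S T` or `T`; its cardinality for `A = ℤ/n` is the number
of characters `H → ℂˣ` of exponent `n` which are trivial on these elements.
-/
import Fermat.Agent.NV2.HomPE

set_option autoImplicit false

namespace Fermat.Agent.S48.BB.N

open Fermat.Agent.NV2
open scoped MatrixGroups

/-- The elements of `H` which are conjugate in `SL(2,ℤ)` to a power of `S`, `S * T` or `T`. -/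
def peSet (H : Subgroup SL(2, ℤ)) : Set H :=
  {η | ∃ σ ∈ ({ModularGroup.S, ModularGroup.S * ModularGroup.T, ModularGroup.T} : Set SL(2, ℤ)),
    ∃ (k : ℕ) (g : SL(2, ℤ)), (η : SL(2, ℤ)) = g⁻¹ * σ ^ k * g}

/-- Homomorphisms `H → A` killing the parabolic and elliptic elements. -/
def homPE (H : Subgroup SL(2, ℤ)) (A : Type*) [AddCommGroup A] : AddSubgroup (Additive H →+ A) where
  carrier := {φ | ∀ η ∈ peSet H, φ (Additive.ofMul η) = 0}
  zero_mem' := fun _ _ => rfl
  add_mem' := by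
    intro φ ψ hφ hψ η hη
    rw [AddMonoidHom.add_apply, hφ η hη, hψ η hη, add_zero]
  neg_mem' := by
    intro φ hφ η hη
    rw [AddMonoidHom.neg_apply, hφ η hη, neg_zero]

theorem mem_homPE {H : Subgroup SL(2, ℤ)} {A : Type*} [AddCommGroup A] {φ : Additive H →+ A} :
    φ ∈ homPE H A ↔ ∀ η ∈ peSet H, φ (Additive.ofMul η) = 0 := Iff.rfl

theorem card_isPEChar_eq_card_homPE (H : Subgroup SL(2, ℤ)) (n : ℕ) (hn : 0 < n) :
    Nat.card {χ : H →* ℂˣ // IsPEChar H STT n χ} = Nat.card (homPE H (ZMod n)) := by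
  have : NeZero n := ⟨hn.ne'⟩
  have hζ : IsPrimitiveRoot (Complex.exp (2 * Real.pi * Complex.I / n)) n :=
    Complex.isPrimitiveRoot_exp n hn.ne'
  have hζu := hζ.isUnit_unit hn.ne'
  set ζ : ℂˣ := (hζ.isUnit hn.ne').unit with hζdef
  have hZ : Subgroup.zpowers ζ = rootsOfUnity n ℂ := hζu.zpowers_eq
  have key := card_char_eq_card_hom (G := H) (Subgroup.zpowers ζ) hζu.zmodEquivZPowers (peSet H)
  have h1 : Nat.card {χ : H →* ℂˣ // IsPEChar H STT n χ} =
      Nat.card {χ : H →* ℂˣ // (∀ η, χ η ∈ Subgroup.zpowers ζ) ∧ ∀ η ∈ peSet H, χ η = 1} := by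
    refine Nat.card_congr (Equiv.subtypeEquivRight fun χ => ?_)
    rw [hZ]
    constructor
    · rintro ⟨ha, hb⟩
      refine ⟨fun η => (mem_rootsOfUnity _ _).mpr (ha η), fun η hη => hb η ⟨η.2, hη⟩⟩
    · rintro ⟨ha, hb⟩
      refine ⟨fun η => (mem_rootsOfUnity _ _).mp (ha η), fun η hη => hb η hη.2⟩
  have h2 : Nat.card (homPE H (ZMod n)) =
      Nat.card {φ : Additive H →+ ZMod n // ∀ η ∈ peSet H, φ (Additive.ofMul η) = 0} := rfl
  rw [h1, h2, key]

end Fermat.Agent.S48.BB.N
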